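import Mathlib
import Fermat.Agent.S59.H105.UqAL
import Fermat.Agent.S59.TW.H653.Diamond
import Fermat.Agent.S59.TW.H201.KDegDefs
import Fermat.Agent.S41.H924.CosetAut

/-!
# HARD / HECKE, one-prime control at `Γ_H`-levels: `U_q²` at `K`-level (helper719)

Level `N`, `Γ₁(N) ≤ K ≤ Γ₀(N)` (`H653.IsMid N K`), `q ∤ N` prime, `K_q = K ⊓ Γ₀(N q)`
(`H201.Kq N q K`), `σ ∈ Γ₀(N q)` with lower right entry `≡ q mod N`.

* `alSystemK` : the Atkin–Lehner coset system of `S59/H105/UqAL.lean` restricts to a coset system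
  from `K_q` to `K` (its representatives are normalised modulo `N`);
* `t₂K_eq_transfer` : `t₂K` (transfer along `c_δ : K_q → K`) is the transfer of `alSystemK`;
* `r₁K_t₂K_apply` : `(r₁ t₂ ψ)(γ) = ψ(c_w γ) + (U_q ψ)(γ)`;
* `r₁K_t₁K_diamond_apply` : `(r₁ t₁ ⟨σ⟩ψ)(γ) = (⟨σ⟩ψ)(γ) + ∑_j ψ(c_w (γ_j))`;
* `UK_UK_K` : `U_q² ψ = ⟨σ⟩ ψ + U_q r₁ t₂ ψ - r₁ t₁ ⟨σ⟩ ψ`.
-/

set_option autoImplicit false

namespace Fermat.Agent.S38.H719

open CongruenceSubgroup Matrix.SpecialLinearGroup ModularForm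
open Fermat.Agent.S29.H642 Fermat.Agent.S41 Fermat.Agent.S41.Spec Fermat.Agent.S41.H761
open Fermat.Agent.S59.H105 Fermat.Agent.S59.TW.H653 Fermat.Agent.S59.TW.H201
open P2MW.S_ModularForm_heckeT_slash_eq_self_of_mem_Gamma0.ModularForm.HeckeSlashInvariance
open scoped MatrixGroups

variable {N q : ℕ} [Fact q.Prime] {K : Subgroup SL(2, ℤ)}

/-! ## Embeddings -/

omit [Fact (Nat.Prime q)] in
theorem ιK_Kq_eq (γ : Kq N q K) : ιK (Kq N q K) γ = ιN (N * q) (toGamma0q N q K γ) := rfl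

omit [Fact (Nat.Prime q)] in
theorem ιK_eq_ιN (hK : IsMid N K) (k : K) : ιK K k = ιN N (inclK hK k) := rfl

/-! ## The Atkin–Lehner representatives are normalised modulo `N` -/

theorem isNormRep_alRep (x b : ℤ) (hxb : x * q - b * N = 1) (y : OnePoint (ZMod q)) :
    IsNormRep N (alRep (alElt N q x b hxb) y) := by
  have hq0 : q ≠ 0 := (Fact.out : q.Prime).ne_zero
  obtain ⟨g00, g01, g10, g11⟩ := alElt_entries (N := N) (q := q) x b hxb
  induction y using OnePoint.rec with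
  | infty =>
    refine ⟨x * q, b, N * q, q, Dvd.intro _ rfl, ⟨b, by linear_combination hxb⟩, ?_⟩
    rw [alRep_infty]
    ext i j
    fin_cases i <;> fin_cases j <;>
      simp only [coe_mul_apply, coe_ιN_apply, coe_heckeRep_infty, Matrix.of_apply,
        Matrix.cons_val', Matrix.cons_val_zero, Matrix.cons_val_one, Matrix.cons_val_fin_one,
        Fin.zero_eta, Fin.mk_one, g00, g01, g10, g11] <;>
      push_cast <;> ring
  | coe j =>
    rw [alRep_coe]
    exact isNormRep_heckeMatrix hq0 j.val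

/-! ## The Atkin–Lehner system at `K`-level -/

/-- The cocycle of the Atkin–Lehner system on `K` takes values in `K_q`. -/
theorem alSystem_coc_mem (hK : IsMid N K) (hqN : ¬ q ∣ N) (x b : ℤ) (hxb : x * q - b * N = 1)
    (y : OnePoint (ZMod q)) (k : K) :
    (((alSystem hqN x b hxb).coc y (inclK hK k) : Gamma0 (N * q)) : SL(2, ℤ)) ∈ Kq N q K := by
  refine ⟨?_, ((alSystem hqN x b hxb).coc y (inclK hK k)).2⟩
  obtain ⟨h1, h2⟩ := normRep_coc (isNormRep_alRep x b hxb y)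
    (isNormRep_alRep x b hxb ((alSystem hqN x b hxb).act y (inclK hK k))) (g := inclK hK k)
    (g' := (((alSystem hqN x b hxb).coc y (inclK hK k) : Gamma0 (N * q)) : SL(2, ℤ)))
    ((alSystem hqN x b hxb).spec y (inclK hK k))
  exact hK.mem_of_dUnit_eq (k := inclK hK k) k.2 h2

/-- **The Atkin–Lehner coset system from `K_q` to `K`.** -/
theorem alSystemK (hK : IsMid N K) (hqN : ¬ q ∣ N) (x b : ℤ) (hxb : x * q - b * N = 1) :
    IsCosetSystem (ιK (Kq N q K)) (ιK K) (alRep (q := q) (alElt N q x b hxb)) where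
  inj := ιK_injective _
  exists_mul := fun y k =>
    ⟨(alSystem hqN x b hxb).act y (inclK hK k), ⟨_, alSystem_coc_mem hK hqN x b hxb y k⟩,
      (alSystem hqN x b hxb).spec y (inclK hK k)⟩
  eq_of_mul := fun y y' g e => (alSystem hqN x b hxb).eq_of_mul y y' (toGamma0q N q K g) e

theorem alSystemK_act (hK : IsMid N K) (hqN : ¬ q ∣ N) (x b : ℤ) (hxb : x * q - b * N = 1)
    (y : OnePoint (ZMod q)) (k : K) :
    (alSystemK hK hqN x b hxb).act y k = (alSystem hqN x b hxb).act y (inclK hK k) :=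
  (alSystemK hK hqN x b hxb).act_eq (g := ⟨_, alSystem_coc_mem hK hqN x b hxb y k⟩)
    ((alSystem hqN x b hxb).spec y (inclK hK k))

theorem alSystemK_coc (hK : IsMid N K) (hqN : ¬ q ∣ N) (x b : ℤ) (hxb : x * q - b * N = 1)
    (y : OnePoint (ZMod q)) (k : K) :
    toGamma0q N q K ((alSystemK hK hqN x b hxb).coc y k) =
      (alSystem hqN x b hxb).coc y (inclK hK k) := by
  rw [(alSystemK hK hqN x b hxb).coc_eq (g := ⟨_, alSystem_coc_mem hK hqN x b hxb y k⟩)
    ((alSystem hqN x b hxb).spec y (inclK hK k))]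
  rfl

/-! ## The `U_q` system at `K_q`-level -/

/-- The `U_q` coset system on `K_q`. -/
theorem uqSystemK (hK : IsMid N K) : IsCosetSystem (ιK (Kq N q K)) (ιK (Kq N q K)) (repsU q) :=
  repsU_system (isMid_Kq hK q) (dvd_mul_self_left N q)

theorem uqSystemK_coc (hK : IsMid N K) (j : ZMod q) (γ : Kq N q K) :
    toGamma0q N q K ((uqSystemK hK).coc j γ) =
      (uqSystem (dvd_mul_self_left N q)).coc j (toGamma0q N q K γ) :=
  system_of_gamma0_coc (isMid_Kq hK q) (repsU_system0 (dvd_mul_self_left N q))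
    (isNormRep_repsU q) j γ

theorem uqSystemK_act (hK : IsMid N K) (j : ZMod q) (γ : Kq N q K) :
    (uqSystemK hK).act j γ = (uqSystem (dvd_mul_self_left N q)).act j (toGamma0q N q K γ) :=
  system_of_gamma0_act (isMid_Kq hK q) (repsU_system0 (dvd_mul_self_left N q))
    (isNormRep_repsU q) j γ

section Ops

variable {A : Type*} [AddCommGroup A]

theorem UK_Kq_apply (hK : IsMid N K) (ψ : Additive (Kq N q K) →+ A) (γ : Kq N q K) :
    UK (Kq N q K) q ψ (Additive.ofMul γ) =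
      ∑ j : ZMod q, ψ (Additive.ofMul ((uqSystemK hK).coc j γ)) := by
  rw [UK_eq (isMid_Kq hK q) (dvd_mul_self_left N q)]
  rfl

theorem UK_Kq_zero (hK : IsMid N K) :
    UK (Kq N q K) q (0 : Additive (Kq N q K) →+ A) = 0 := by
  have h := UK_add (isMid_Kq hK q) (dvd_mul_self_left N q) (0 : Additive (Kq N q K) →+ A) 0
  rw [add_zero] at h
  exact left_eq_add.mp h

/-! ## The Atkin–Lehner conjugation on `K_q` -/

/-- The Atkin–Lehner conjugation `γ ↦ w γ w⁻¹` on `K_q`. -/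
noncomputable def alConjK (hK : IsMid N K) (hqN : ¬ q ∣ N) (x b : ℤ) (hxb : x * q - b * N = 1)
    (γ : Kq N q K) : Kq N q K :=
  (alSystemK hK hqN x b hxb).coc OnePoint.infty (inclKq N q K γ)

theorem toGamma0q_alConjK (hK : IsMid N K) (hqN : ¬ q ∣ N) (x b : ℤ) (hxb : x * q - b * N = 1)
    (γ : Kq N q K) :
    toGamma0q N q K (alConjK hK hqN x b hxb γ) = alConj hqN x b hxb (toGamma0q N q K γ) :=
  alSystemK_coc hK hqN x b hxb OnePoint.infty (inclKq N q K γ)

/-- At the finite points the Atkin–Lehner system restricts to the `U_q` system. -/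
theorem alSystemK_coe (hK : IsMid N K) (hqN : ¬ q ∣ N) (x b : ℤ) (hxb : x * q - b * N = 1)
    (γ : Kq N q K) (j : ZMod q) :
    (alSystemK hK hqN x b hxb).coc (j : OnePoint (ZMod q)) (inclKq N q K γ) =
      (uqSystemK hK).coc j γ := by
  apply toGamma0q_injective N q K
  rw [alSystemK_coc hK hqN x b hxb, uqSystemK_coc hK]
  exact (alSystem_coe hqN x b hxb (toGamma0q N q K γ) j).2

/-- `(r₁ t₂ ψ)(γ) = ψ(c_w γ) + (U_q ψ)(γ)`, with `t₂` the transfer of the Atkin–Lehner system. -/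
theorem r₁K_alTransfer_apply (hK : IsMid N K) (hqN : ¬ q ∣ N) (x b : ℤ)
    (hxb : x * q - b * N = 1) (ψ : Additive (Kq N q K) →+ A) (γ : Kq N q K) :
    r₁K N q K ((alSystemK hK hqN x b hxb).transfer ψ) (Additive.ofMul γ) =
      ψ (Additive.ofMul (alConjK hK hqN x b hxb γ)) +
        UK (Kq N q K) q ψ (Additive.ofMul γ) := by
  rw [r₁K_apply, IsCosetSystem.transfer_apply, sum_onePoint, UK_Kq_apply hK]
  congr 1
  exact Finset.sum_congr rfl fun j _ => by rw [alSystemK_coe hK hqN x b hxb]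

/-! ## `t₂K` is the transfer of the Atkin–Lehner system -/

theorem t₂K_eq_transfer (hK : IsMid N K) (hN : N ≠ 0) (hqN : ¬ q ∣ N) (x b : ℤ)
    (hxb : x * q - b * N = 1) (ψ : Additive (Kq N q K) →+ A) :
    t₂K hK q ψ = (alSystemK hK hqN x b hxb).transfer ψ := by
  have hqp : q.Prime := Fact.out
  have hfin := finiteIndex_range_conjDeltaK hK hN hqp hqN
  let _ : Fintype (K ⧸ (conjDeltaK hK q).range) :=
    (conjDeltaK hK q).range.fintypeQuotientOfFiniteIndex
  have hinj := conjDeltaK_injective hK hqp.ne_zero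
  have hrel : ∀ g' : Kq N q K, heckeRep q ((0 : ZMod q) : OnePoint (ZMod q)) *
      ((ιK K).comp (conjDeltaK hK q)) g' =
      ιK (Kq N q K) ((MonoidHom.id (Kq N q K)) g') *
        heckeRep q ((0 : ZMod q) : OnePoint (ZMod q)) :=
    fun g' => r1_rel (toGamma0q N q K g')
  have hs1 := IsCosetSystem.single (ι := ιK (Kq N q K)) (ι' := (ιK K).comp (conjDeltaK hK q))
    (ιK_injective (Kq N q K)) (MonoidHom.id (Kq N q K))
    (heckeRep q ((0 : ZMod q) : OnePoint (ZMod q))) hrel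
  have hs2 := IsCosetSystem.ofTransfer (conjDeltaK hK q) hinj (ιK K) (ιK_injective K)
  have hprod := hs1.prod hs2 (by
    intro _ _ z z' g e
    refine ⟨rfl, ?_⟩
    have e1 := hrel g
    rw [MonoidHom.id_apply] at e1
    rw [← mul_assoc, ← e1, mul_assoc] at e
    have e2 := mul_left_cancel e
    rw [MonoidHom.comp_apply, ← map_mul] at e2
    have e3 := ιK_injective K e2
    have hmem : (z.out)⁻¹ * z'.out ∈ (conjDeltaK hK q).range :=
      ⟨g, by rw [e3, inv_mul_cancel_right]⟩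
    have h3 := QuotientGroup.eq.mpr hmem
    rwa [QuotientGroup.out_eq', QuotientGroup.out_eq'] at h3)
  show transferAlong (conjDeltaK hK q) ψ = _
  rw [transferAlong_eq (conjDeltaK hK q) hinj (ιK K) (ιK_injective K)]
  have hr1 : ψ = hs1.transfer ψ := by
    rw [IsCosetSystem.single_transfer (ι := ιK (Kq N q K))
      (ι' := (ιK K).comp (conjDeltaK hK q)) (ιK_injective (Kq N q K))
      (MonoidHom.id (Kq N q K)) (heckeRep q ((0 : ZMod q) : OnePoint (ZMod q))) hrel ψ]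
    rfl
  conv_lhs => rw [hr1]
  rw [IsCosetSystem.transfer_comp hs1 hs2 hprod]
  refine IsCosetSystem.transfer_eq_of_le_of_card hprod (alSystemK hK hqN x b hxb) ?_
    (fun z => ?_) ψ
  · rw [Fintype.card_prod, Fintype.card_unit, one_mul, ← Nat.card_eq_fintype_card,
      ← Nat.card_eq_fintype_card, card_onePoint_zmod, ← index_range_conjDeltaK hK hN hqp hqN,
      Subgroup.index_eq_card]
  · have := (alSystemK hK hqN x b hxb).spec ((0 : ZMod q) : OnePoint (ZMod q)) (z.2.out)⁻¹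
    rw [alRep_coe] at this
    exact ⟨_, _, this⟩

/-- `(r₁ t₂ ψ)(γ) = ψ(c_w γ) + (U_q ψ)(γ)`. -/
theorem r₁K_t₂K_apply (hK : IsMid N K) (hN : N ≠ 0) (hqN : ¬ q ∣ N) (x b : ℤ)
    (hxb : x * q - b * N = 1) (ψ : Additive (Kq N q K) →+ A) (γ : Kq N q K) :
    r₁K N q K (t₂K hK q ψ) (Additive.ofMul γ) =
      ψ (Additive.ofMul (alConjK hK hqN x b hxb γ)) +
        UK (Kq N q K) q ψ (Additive.ofMul γ) := by
  rw [t₂K_eq_transfer hK hN hqN x b hxb, r₁K_alTransfer_apply]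

end Ops

/-! ## The twisted transversal of `K_q` in `K` -/

omit [Fact (Nat.Prime q)] in
theorem dUnit_upperUnip (k : ℤ) : dUnit N (upperUnip N k) = 1 := by
  apply Units.ext
  rw [coe_dUnit, (upperUnip_entries N k).2.2.2]
  simp

omit [Fact (Nat.Prime q)] in
theorem dUnit_alElt (x b : ℤ) (hxb : x * q - b * N = 1) :
    ((dUnit N (alElt N q x b hxb) : (ZMod N)ˣ) : ZMod N) = (q : ZMod N) := by
  rw [coe_dUnit, (alElt_entries x b hxb).2.2.2]
  simp

/-- The twisting elements: `1` at `∞`, `σ⁻¹` at the finite points. -/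
def alTau (σ : Gamma0 (N * q)) (y : OnePoint (ZMod q)) : Gamma0 N :=
  Option.elim y 1 (fun _ => (incl N q σ)⁻¹)

omit [Fact (Nat.Prime q)] in
theorem alTau_infty (σ : Gamma0 (N * q)) : alTau σ (OnePoint.infty : OnePoint (ZMod q)) = 1 := rfl

omit [Fact (Nat.Prime q)] in
theorem alTau_coe (σ : Gamma0 (N * q)) (j : ZMod q) :
    alTau σ (j : OnePoint (ZMod q)) = (incl N q σ)⁻¹ := rfl

omit [Fact (Nat.Prime q)] in
theorem alTau_mem_range (σ : Gamma0 (N * q)) (y : OnePoint (ZMod q)) :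
    alTau σ y ∈ (incl N q).range := by
  induction y using OnePoint.rec with
  | infty => exact one_mem _
  | coe j => exact inv_mem ⟨σ, rfl⟩

omit [Fact (Nat.Prime q)] in
/-- The twisted transversal has lower right entry `≡ 1 mod N`. -/
theorem dUnit_alTau_mul_alTrans (x b : ℤ) (hxb : x * q - b * N = 1) (σ : Gamma0 (N * q))
    (hσ : ((dUnit N (incl N q σ) : (ZMod N)ˣ) : ZMod N) = (q : ZMod N))
    (y : OnePoint (ZMod q)) :
    dUnit N (alTau σ y * alTrans (alElt N q x b hxb) y) = 1 := by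
  have hσ' : dUnit N (incl N q σ) = dUnit N (alElt N q x b hxb) :=
    Units.ext (hσ.trans (dUnit_alElt x b hxb).symm)
  induction y using OnePoint.rec with
  | infty => rw [alTau_infty, alTrans_infty, mul_one, map_one]
  | coe j =>
    rw [alTau_coe, alTrans_coe, map_mul, map_mul, map_inv, dUnit_upperUnip, mul_one, hσ',
      inv_mul_cancel]

/-- The transversal `1`, `σ⁻¹ g₀ [[1, j], [0, 1]]` of `K_q` in `K`. -/
def alTransK (hK : IsMid N K) (x b : ℤ) (hxb : x * q - b * N = 1) (σ : Gamma0 (N * q))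
    (hσ : ((dUnit N (incl N q σ) : (ZMod N)ˣ) : ZMod N) = (q : ZMod N))
    (y : OnePoint (ZMod q)) : K :=
  ⟨((alTau σ y * alTrans (alElt N q x b hxb) y : Gamma0 N) : SL(2, ℤ)),
    hK.mem_of_dUnit_eq_one (dUnit_alTau_mul_alTrans x b hxb σ hσ y)⟩

omit [Fact (Nat.Prime q)] in
theorem inclK_alTransK (hK : IsMid N K) (x b : ℤ) (hxb : x * q - b * N = 1)
    (σ : Gamma0 (N * q)) (hσ : ((dUnit N (incl N q σ) : (ZMod N)ˣ) : ZMod N) = (q : ZMod N))
    (y : OnePoint (ZMod q)) :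
    inclK hK (alTransK hK x b hxb σ hσ y) = alTau σ y * alTrans (alElt N q x b hxb) y := rfl

omit [Fact (Nat.Prime q)] in
theorem alTransK_infty (hK : IsMid N K) (x b : ℤ) (hxb : x * q - b * N = 1)
    (σ : Gamma0 (N * q)) (hσ : ((dUnit N (incl N q σ) : (ZMod N)ˣ) : ZMod N) = (q : ZMod N)) :
    alTransK hK x b hxb σ hσ (OnePoint.infty : OnePoint (ZMod q)) = 1 := by
  apply inclK_injective hK
  rw [inclK_alTransK, alTau_infty, alTrans_infty, mul_one, map_one]

theorem alTransK_distinct (hK : IsMid N K) (hqN : ¬ q ∣ N) (x b : ℤ) (hxb : x * q - b * N = 1)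
    (σ : Gamma0 (N * q)) (hσ : ((dUnit N (incl N q σ) : (ZMod N)ˣ) : ZMod N) = (q : ZMod N))
    (y y' : OnePoint (ZMod q))
    (h : alTransK hK x b hxb σ hσ y * (alTransK hK x b hxb σ hσ y')⁻¹ ∈ (inclKq N q K).range) :
    y = y' := by
  rw [mem_range_inclKq_iff hK, map_mul, map_inv, inclK_alTransK, inclK_alTransK] at h
  apply alTrans_distinct hqN x b hxb y y'
  have h1 := (incl N q).range.mul_mem
    ((incl N q).range.mul_mem ((incl N q).range.inv_mem (alTau_mem_range σ y)) h)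
    (alTau_mem_range σ y')
  have e : (alTau σ y)⁻¹ * (alTau σ y * alTrans (alElt N q x b hxb) y *
      (alTau σ y' * alTrans (alElt N q x b hxb) y')⁻¹) * alTau σ y' =
      alTrans (alElt N q x b hxb) y * (alTrans (alElt N q x b hxb) y')⁻¹ := by
    group
  rwa [e] at h1

/-- The coset system of the twisted transversal. -/
theorem alTransSystemK (hK : IsMid N K) (hN : N ≠ 0) (hqN : ¬ q ∣ N) (x b : ℤ)
    (hxb : x * q - b * N = 1) (σ : Gamma0 (N * q))
    (hσ : ((dUnit N (incl N q σ) : (ZMod N)ˣ) : ZMod N) = (q : ZMod N)) :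
    IsCosetSystem ((ιK K).comp (inclKq N q K)) (ιK K)
      (fun y : OnePoint (ZMod q) => ιK K (alTransK hK x b hxb σ hσ y)) := by
  have hqp : q.Prime := Fact.out
  exact isCosetSystem_of_transversal (inclKq N q K) (inclKq_injective N q K) (ιK K)
    (ιK_injective K) (alTransK hK x b hxb σ hσ) (alTransK_distinct hK hqN x b hxb σ hσ)
    (by rw [card_onePoint_zmod, index_range_inclKq hK hN hqp hqN])
    (by rw [index_range_inclKq hK hN hqp hqN]; omega)

/-- The key relation in `Γ₀(N)`: `g₀ u_j γ = c_w(γ_j) g₀ u_{j'}`. -/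
theorem alTrans_mul_incl (hqN : ¬ q ∣ N) (x b : ℤ) (hxb : x * q - b * N = 1)
    (γ : Gamma0 (N * q)) (j : ZMod q) :
    alTrans (alElt N q x b hxb) (j : OnePoint (ZMod q)) * incl N q γ =
      incl N q (alConj hqN x b hxb ((uqSystem (dvd_mul_self_left N q)).coc j γ)) *
        alTrans (alElt N q x b hxb)
          (((uqSystem (dvd_mul_self_left N q)).act j γ : ZMod q) : OnePoint (ZMod q)) := by
  rw [alTrans_coe, alTrans_coe, ← mul_assoc, (alSystem_infty hqN x b hxb _).2, mul_assoc,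
    mul_assoc, conjDelta_coc_mul γ j]

section Ops2

variable {A : Type*} [AddCommGroup A]

/-- `t₁K` is the transfer of the coset system of the twisted transversal. -/
theorem t₁K_eq_transfer (hK : IsMid N K) (hN : N ≠ 0) (hqN : ¬ q ∣ N) (x b : ℤ)
    (hxb : x * q - b * N = 1) (σ : Gamma0 (N * q))
    (hσ : ((dUnit N (incl N q σ) : (ZMod N)ˣ) : ZMod N) = (q : ZMod N))
    (ψ : Additive (Kq N q K) →+ A) :
    t₁K N q K ψ = (alTransSystemK hK hN hqN x b hxb σ hσ).transfer ψ := by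
  have hqp : q.Prime := Fact.out
  exact transferAlong_eq_of_transversal (inclKq N q K) (inclKq_injective N q K) (ιK K)
    (ιK_injective K) (alTransK hK x b hxb σ hσ) (alTransK_distinct hK hqN x b hxb σ hσ)
    (by rw [card_onePoint_zmod, index_range_inclKq hK hN hqp hqN])
    (by rw [index_range_inclKq hK hN hqp hqN]; omega) ψ

/-- The trivial coset is fixed by `K_q`, with cocycle the identity. -/
theorem alTransSystemK_infty (hK : IsMid N K) (hN : N ≠ 0) (hqN : ¬ q ∣ N) (x b : ℤ)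
    (hxb : x * q - b * N = 1) (σ : Gamma0 (N * q))
    (hσ : ((dUnit N (incl N q σ) : (ZMod N)ˣ) : ZMod N) = (q : ZMod N)) (γ : Kq N q K) :
    (alTransSystemK hK hN hqN x b hxb σ hσ).coc OnePoint.infty (inclKq N q K γ) = γ := by
  apply (alTransSystemK hK hN hqN x b hxb σ hσ).coc_eq (j := OnePoint.infty)
  simp only [alTransK_infty, map_one, one_mul, mul_one]
  rfl

/-- On the other cosets the cocycle is `σ⁻¹ c_w(γ_j) σ`. -/
theorem alTransSystemK_coe (hK : IsMid N K) (hN : N ≠ 0) (hqN : ¬ q ∣ N) (x b : ℤ)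
    (hxb : x * q - b * N = 1) (σ : Gamma0 (N * q))
    (hσ : ((dUnit N (incl N q σ) : (ZMod N)ˣ) : ZMod N) = (q : ZMod N)) (γ : Kq N q K)
    (j : ZMod q) :
    (alTransSystemK hK hN hqN x b hxb σ hσ).coc (j : OnePoint (ZMod q)) (inclKq N q K γ) =
      (conjK (isMid_Kq hK q) σ).symm (alConjK hK hqN x b hxb ((uqSystemK hK).coc j γ)) := by
  apply (alTransSystemK hK hN hqN x b hxb σ hσ).coc_eq
    (j := (((uqSystemK hK).act j γ : ZMod q) : OnePoint (ZMod q)))
  rw [MonoidHom.comp_apply, ← map_mul, ← map_mul]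
  congr 1
  apply inclK_injective hK
  rw [map_mul, map_mul, inclK_alTransK, inclK_alTransK, inclK_inclKq, inclK_inclKq, alTau_coe,
    alTau_coe, uqSystemK_act hK]
  have e1 : toGamma0q N q K ((conjK (isMid_Kq hK q) σ).symm
      (alConjK hK hqN x b hxb ((uqSystemK hK).coc j γ))) =
      σ⁻¹ * alConj hqN x b hxb ((uqSystem (dvd_mul_self_left N q)).coc j (toGamma0q N q K γ)) *
        σ := by
    rw [← uqSystemK_coc hK, ← toGamma0q_alConjK hK hqN x b hxb]
    rfl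
  rw [e1, map_mul, map_mul, map_inv, mul_assoc ((incl N q σ)⁻¹), alTrans_mul_incl hqN x b hxb]
  simp only [mul_assoc, mul_inv_cancel_left]

/-- `(r₁ t₁ ⟨σ⟩ψ)(γ) = (⟨σ⟩ψ)(γ) + ∑_j ψ(c_w (γ_j))`. -/
theorem r₁K_t₁K_diamond_apply (hK : IsMid N K) (hN : N ≠ 0) (hqN : ¬ q ∣ N) (x b : ℤ)
    (hxb : x * q - b * N = 1) (σ : Gamma0 (N * q))
    (hσ : ((dUnit N (incl N q σ) : (ZMod N)ˣ) : ZMod N) = (q : ZMod N))
    (ψ : Additive (Kq N q K) →+ A) (γ : Kq N q K) :
    r₁K N q K (t₁K N q K (diamond (isMid_Kq hK q) σ ψ)) (Additive.ofMul γ) =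
      diamond (isMid_Kq hK q) σ ψ (Additive.ofMul γ) +
        ∑ j : ZMod q, ψ (Additive.ofMul
          (alConjK hK hqN x b hxb ((uqSystemK hK).coc j γ))) := by
  rw [t₁K_eq_transfer hK hN hqN x b hxb σ hσ, r₁K_apply, IsCosetSystem.transfer_apply,
    sum_onePoint, alTransSystemK_infty hK hN hqN x b hxb σ hσ]
  congr 1
  refine Finset.sum_congr rfl fun j _ => ?_
  rw [alTransSystemK_coe hK hN hqN x b hxb σ hσ, diamond_apply, MulEquiv.apply_symm_apply]

/-- **`U_q² = ⟨σ⟩ + U_q r₁ t₂ - r₁ t₁ ⟨σ⟩`** on `Hom(K_q, A)`, `K_q = K ⊓ Γ₀(N q)`, `q ∤ N`,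
`σ ∈ Γ₀(N q)` with lower right entry `≡ q mod N`. -/
theorem UK_UK_K (hK : IsMid N K) (hN : N ≠ 0) (hqN : ¬ q ∣ N) (σ : Gamma0 (N * q))
    (hσ : ((dUnit N (incl N q σ) : (ZMod N)ˣ) : ZMod N) = (q : ZMod N))
    (ψ : Additive (Kq N q K) →+ A) :
    UK (Kq N q K) q (UK (Kq N q K) q ψ) =
      diamond (isMid_Kq hK q) σ ψ + UK (Kq N q K) q (r₁K N q K (t₂K hK q ψ)) -
        r₁K N q K (t₁K N q K (diamond (isMid_Kq hK q) σ ψ)) := by
  obtain ⟨x, b, hxb⟩ := exists_bezout_al (N := N) (q := q) hqN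
  refine AddMonoidHom.ext fun g' => ?_
  obtain ⟨γ, rfl⟩ : ∃ g : Kq N q K, Additive.ofMul g = g' := ⟨Additive.toMul g', rfl⟩
  have hW : ∀ γ' : Kq N q K, ψ (Additive.ofMul (alConjK hK hqN x b hxb γ')) =
      r₁K N q K (t₂K hK q ψ) (Additive.ofMul γ') -
        UK (Kq N q K) q ψ (Additive.ofMul γ') := by
    intro γ'
    rw [r₁K_t₂K_apply hK hN hqN x b hxb, add_sub_cancel_right]
  rw [AddMonoidHom.sub_apply, AddMonoidHom.add_apply,
    r₁K_t₁K_diamond_apply hK hN hqN x b hxb σ hσ, UK_Kq_apply hK, UK_Kq_apply hK]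
  simp only [hW, Finset.sum_sub_distrib]
  abel

/-! ## Consumer forms -/

omit [Fact (Nat.Prime q)] in
/-- On `Hom(K_q, A)` the diamond operator of `σ ∈ Γ₀(N q)` only depends on `d(σ) mod N`. -/
theorem diamond_Kq_congr (hK : IsMid N K) {σ σ' : Gamma0 (N * q)}
    (h : dUnit N (incl N q σ) = dUnit N (incl N q σ')) (ψ : Additive (Kq N q K) →+ A) :
    diamond (isMid_Kq hK q) σ ψ = diamond (isMid_Kq hK q) σ' ψ := by
  apply diamond_congr_of_mem
  refine ⟨?_, (σ⁻¹ * σ').2⟩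
  have h1 : dUnit N (incl N q (σ⁻¹ * σ')) = 1 := by
    rw [map_mul, map_mul, map_inv, map_inv, h, inv_mul_cancel]
  exact hK.mem_of_dUnit_eq_one h1

omit [Fact (Nat.Prime q)] in
/-- `t₁ ⟨σ⟩ = ⟨σ⟩ t₁`. -/
theorem t₁K_diamond (hK : IsMid N K) (σ : Gamma0 (N * q)) (ψ : Additive (Kq N q K) →+ A) :
    t₁K N q K (diamond (isMid_Kq hK q) σ ψ) = diamond hK (incl N q σ) (t₁K N q K ψ) :=
  Fermat.Agent.S41.H924.transferAlong_comp_aut (inclKq N q K) (conjK (isMid_Kq hK q) σ)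
    (conjK hK (incl N q σ)) (fun _ => rfl) ψ

omit [Fact (Nat.Prime q)] in
/-- `r₁ ⟨σ⟩ = ⟨σ⟩ r₁`. -/
theorem r₁K_diamond (hK : IsMid N K) (σ : Gamma0 (N * q)) (φ : Additive K →+ A) :
    r₁K N q K (diamond hK (incl N q σ) φ) = diamond (isMid_Kq hK q) σ (r₁K N q K φ) := rfl

/-- **`U_q² = ⟨σ⟩ + U_q r₁ t₂ - ⟨σ⟩ r₁ t₁`** on `Hom(K_q, A)` (the field `UU` of the twisted
degeneracy relations, `D_Q = ⟨σ⟩`). -/
theorem UK_UK_K' (hK : IsMid N K) (hN : N ≠ 0) (hqN : ¬ q ∣ N) (σ : Gamma0 (N * q))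
    (hσ : ((dUnit N (incl N q σ) : (ZMod N)ˣ) : ZMod N) = (q : ZMod N))
    (ψ : Additive (Kq N q K) →+ A) :
    UK (Kq N q K) q (UK (Kq N q K) q ψ) =
      diamond (isMid_Kq hK q) σ ψ + UK (Kq N q K) q (r₁K N q K (t₂K hK q ψ)) -
        diamond (isMid_Kq hK q) σ (r₁K N q K (t₁K N q K ψ)) := by
  rw [UK_UK_K hK hN hqN σ hσ, t₁K_diamond hK, r₁K_diamond hK]

/-- **`U_q² = ⟨σ⟩` on the `q`-new classes of `Hom(K_q, A)`.** -/
theorem UK_UK_K_of_new (hK : IsMid N K) (hN : N ≠ 0) (hqN : ¬ q ∣ N) (σ : Gamma0 (N * q))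
    (hσ : ((dUnit N (incl N q σ) : (ZMod N)ˣ) : ZMod N) = (q : ZMod N))
    (ψ : Additive (Kq N q K) →+ A) (h₁ : t₁K N q K ψ = 0) (h₂ : t₂K hK q ψ = 0) :
    UK (Kq N q K) q (UK (Kq N q K) q ψ) = diamond (isMid_Kq hK q) σ ψ := by
  have hz : r₁K N q K (0 : Additive K →+ A) = 0 := rfl
  rw [UK_UK_K' hK hN hqN σ hσ, h₁, h₂, hz, UK_Kq_zero hK, diamond_zero, add_zero, sub_zero]

/-- There is `σ ∈ Γ₀(N q)` with lower right entry `≡ q mod N`. -/
theorem exists_sigma_q (hN : N ≠ 0) (hqN : ¬ q ∣ N) :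
    ∃ σ : Gamma0 (N * q), ((dUnit N (incl N q σ) : (ZMod N)ˣ) : ZMod N) = (q : ZMod N) := by
  have hqp : q.Prime := Fact.out
  have : NeZero (N * q) := ⟨Nat.mul_ne_zero hN hqp.ne_zero⟩
  have hcop : Nat.Coprime q N := hqp.coprime_iff_not_dvd.mpr hqN
  obtain ⟨σ, hσ⟩ := exists_Gamma0q_dUnit N q (ZMod.unitOfCoprime q hcop)
  exact ⟨σ, by rw [hσ, ZMod.coe_unitOfCoprime]⟩

end Ops2

end Fermat.Agent.S38.H719
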