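import Mathlib
import Fermat.Agent.S41.H761.HT
import Fermat.Agent.S59.H105.UqHK

/-!
# HARD / HECKE, leaf CTRL-MIN, part (ii-a): cross-level commutation of `U_{q'}` (helper719)

Levels `N` and `N q` (`q ∤ N` prime), `q' ∣ N` a prime.  `t₁, t₂ : Hom(Γ₀(N q), A) → Hom(Γ₀(N), A)` the two
transfers of row S41 (`Spec/HK.lean`), `U_{q'}` the operator of `S59/H105/UqSystem.lean` at both levels.

* `sysTransfer_transferAlong` : the general commutation lemma of `S41/H761/HT.lean`
  (`heckeTransfer_transferAlong`) for an ARBITRARY family of representatives which is a coset system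
  at both levels;
* `Uq_t₁` : `U_{q'} (t₁ ψ) = t₁ (U_{q'} ψ)`;
* `Uq_t₂` : `U_{q'} (t₂ ψ) = t₂ (U_{q'} ψ)`.

These are what is needed to iterate the one-prime control theorem of `S59/H105/CtrlOps.lean` over several
Taylor–Wiles primes: the transfers at the last prime respect the conditions `U_{q_j} ≡ α_j` at the earlier ones.
-/

set_option autoImplicit false

namespace Fermat.Agent.S38.H719

open CongruenceSubgroup Matrix.SpecialLinearGroup ModularForm
open Fermat.Agent.S29.H642 Fermat.Agent.S41.Spec Fermat.Agent.S41.H761 Fermat.Agent.S59.H105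
open P2MW.S_ModularForm_heckeT_slash_eq_self_of_mem_Gamma0.ModularForm.HeckeSlashInvariance
open scoped MatrixGroups

section General

variable {N M : ℕ} {A : Type*} [AddCommGroup A] {I : Type*} [Fintype I]
  {ρ : I → GL (Fin 2) ℝ}

/-- **General commutation lemma** (any family of representatives).  `f : Γ₀(M) →* Γ₀(N)` injective
with finite index range, realized by conjugation by `d`; `ρ` a coset system at both levels; the
conjugated representatives `d ρ_y d⁻¹` are representatives up to `Γ₀(N)`, and the cosets of the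
family `d ρ_y d⁻¹ x⁻¹` are distinct.  Then the operator of `ρ` commutes with the transfer along
`f`. -/
theorem sysTransfer_transferAlong (sysN : IsCosetSystem (ιN N) (ιN N) ρ)
    (sysM : IsCosetSystem (ιN M) (ιN M) ρ) (f : Gamma0 M →* Gamma0 N)
    (hf : Function.Injective f) [f.range.FiniteIndex] (d : GL (Fin 2) ℝ)
    (hd : ∀ g : Gamma0 M, d * ιN M g = ((ιN N).comp f) g * d)
    (H1 : ∀ y : I, ∃ (u : Gamma0 N) (y' : I), d * ρ y * d⁻¹ = ιN N u * ρ y')
    (H2 : ∀ (y y' : I) (m : Gamma0 N) (g : Gamma0 M) (Q : GL (Fin 2) ℝ),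
      d * Q = ιN N m * d → ρ y * Q = ιN M g * ρ y' → m ∈ f.range)
    (ψ : Additive (Gamma0 M) →+ A) :
    sysN.transfer (transferAlong f ψ) = transferAlong f (sysM.transfer ψ) := by
  classical
  let _ : Fintype (Gamma0 N ⧸ f.range) := f.range.fintypeQuotientOfFiniteIndex
  have sysT' := sysM.conj d hd hd
  have sysTr := IsCosetSystem.ofTransfer f hf (ιN N) (ιN_injective N)
  -- family A
  have famA := sysTr.prod sysN (by
    intro x x' y y' g e
    have e2 : ρ y = ιN N (x.out * f g * (x'.out)⁻¹) * ρ y' := by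
      have h1 : ρ y = ιN N x.out * (ιN N (x.out)⁻¹ * ρ y) := by
        rw [map_inv, mul_inv_cancel_left]
      rw [h1, e]
      simp only [MonoidHom.comp_apply, map_mul, mul_assoc]
    have hy := sysN.eq_of_mul _ _ _ e2
    subst hy
    have e3 : ιN N (x.out * f g * (x'.out)⁻¹) = 1 := by
      have h2 : ιN N (x.out * f g * (x'.out)⁻¹) * ρ y = 1 * ρ y := by
        rw [one_mul]; exact e2.symm
      exact mul_right_cancel h2
    have e4 : x.out * f g * (x'.out)⁻¹ = 1 := ιN_injective N (e3.trans (map_one _).symm)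
    have e5 : f g = (x.out)⁻¹ * x'.out := by
      have := congrArg (fun t => (x.out)⁻¹ * t * x'.out) e4
      simpa [mul_assoc] using this
    have hmem : (x.out)⁻¹ * x'.out ∈ f.range := ⟨g, e5⟩
    have h3 := QuotientGroup.eq.mpr hmem
    rw [QuotientGroup.out_eq', QuotientGroup.out_eq'] at h3
    exact ⟨h3, rfl⟩)
  -- family B
  have famB := sysT'.prod sysTr (by
    intro y y' x x' g e
    have hfg : ((ιN N).comp f) g = d * ιN M g * d⁻¹ := by
      rw [hd g, mul_inv_cancel_right]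
    have hQ : ρ y * (d⁻¹ * ιN N ((x.out)⁻¹ * x'.out) * d) = ιN M g * ρ y' := by
      have e' := congrArg (fun t => d⁻¹ * t * (ιN N (x'.out)⁻¹)⁻¹ * d) e
      simp only [hfg, mul_assoc, inv_mul_cancel_left, inv_mul_cancel, mul_one, map_inv,
        inv_inv] at e'
      simp only [map_mul, map_inv, mul_assoc]
      exact e'
    have hmem := H2 y y' ((x.out)⁻¹ * x'.out) g (d⁻¹ * ιN N ((x.out)⁻¹ * x'.out) * d)
      (by simp only [mul_assoc, mul_inv_cancel_left]) hQ
    have hx : x = x' := by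
      have h3 := QuotientGroup.eq.mpr hmem
      rwa [QuotientGroup.out_eq', QuotientGroup.out_eq'] at h3
    subst hx
    refine ⟨?_, rfl⟩
    have e2 := mul_right_cancel (e.trans (mul_assoc _ _ _).symm)
    exact sysT'.eq_of_mul _ _ _ e2)
  rw [transferAlong_eq f hf (ιN N) (ιN_injective N),
    transferAlong_eq f hf (ιN N) (ιN_injective N), ← IsCosetSystem.conj_transfer sysM d hd hd]
  rw [IsCosetSystem.transfer_comp sysTr sysN famA, IsCosetSystem.transfer_comp sysT' sysTr famB]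
  symm
  refine IsCosetSystem.transfer_eq_of_le_of_card famB famA ?_ ?_ ψ
  · rw [Fintype.card_prod, Fintype.card_prod, mul_comm]
  · rintro ⟨y, x⟩
    obtain ⟨u, y₁, hu⟩ := H1 y
    set w : Gamma0 N := u * sysN.coc y₁ (x.out)⁻¹ with hw
    have hmem : (w⁻¹)⁻¹ * ((w⁻¹ : Gamma0 N) : Gamma0 N ⧸ f.range).out ∈ f.range :=
      QuotientGroup.eq.mp (QuotientGroup.out_eq' _).symm
    obtain ⟨g, hg⟩ := hmem
    rw [inv_inv] at hg
    refine ⟨(((w⁻¹ : Gamma0 N) : Gamma0 N ⧸ f.range), sysN.act y₁ (x.out)⁻¹), g, ?_⟩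
    rw [hu, mul_assoc, sysN.spec y₁ (x.out)⁻¹, MonoidHom.comp_apply, hg]
    simp only [map_mul, map_inv, mul_assoc, hw]
    rw [mul_inv_cancel_left]

end General

section Level

variable {N q q' : ℕ} [Fact q'.Prime] {A : Type*} [AddCommGroup A]

theorem Uq_zero719 {M : ℕ} (hq' : q' ∣ M) : Uq hq' (0 : Additive (Gamma0 M) →+ A) = 0 := by
  have h := Uq_add hq' (0 : Additive (Gamma0 M) →+ A) 0
  rw [add_zero] at h
  exact left_eq_add.mp h

/-- `U_{q'} t₁ = t₁ U_{q'}` for `q' ∣ N`, `q ∤ N` prime. -/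
theorem Uq_t₁ (hq : q.Prime) (hqN : ¬ q ∣ N) (hq' : q' ∣ N) (hq'' : q' ∣ N * q)
    (ψ : Additive (Gamma0 (N * q)) →+ A) :
    Uq hq' (t₁ N q ψ) = t₁ N q (Uq hq'' ψ) := by
  by_cases hfin : (incl N q).range.FiniteIndex
  · refine sysTransfer_transferAlong (uqSystem hq') (uqSystem hq'') (incl N q)
      (Fermat.Agent.S41.H105.incl_injective N q) 1 (fun g => by rw [one_mul, mul_one]; rfl)
      (fun y => ⟨1, y, by simp⟩) ?_ ψ
    intro y y' m g Q hQ e
    rw [one_mul, mul_one] at hQ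
    subst hQ
    have e10 := congrArg (fun M : GL (Fin 2) ℝ => (M : Matrix (Fin 2) (Fin 2) ℝ) 1 0) e
    simp only [coe_mul_apply, coe_ιN_apply, coe_uqRep, Matrix.of_apply, Matrix.cons_val',
      Matrix.cons_val_zero, Matrix.cons_val_one, Matrix.cons_val_fin_one, zero_mul, zero_add,
      mul_zero, add_zero, mul_one] at e10
    have e10' : (q' : ℤ) * (m : SL(2, ℤ)) 1 0 = (g : SL(2, ℤ)) 1 0 := by exact_mod_cast e10
    have hg : ((N * q : ℕ) : ℤ) ∣ (g : SL(2, ℤ)) 1 0 := dvd_of_mem_Gamma0 g.2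
    have hqg : (q : ℤ) ∣ (q' : ℤ) * (m : SL(2, ℤ)) 1 0 := by
      rw [e10']
      exact dvd_trans ⟨(N : ℤ), by push_cast; ring⟩ hg
    have hqq' : ¬ q ∣ q' := fun h => hqN (dvd_trans h hq')
    have hcop : IsCoprime (q : ℤ) (q' : ℤ) := by
      rw [Int.isCoprime_iff_gcd_eq_one, Int.gcd_natCast_natCast]
      exact hq.coprime_iff_not_dvd.mpr hqq'
    exact (Fermat.Agent.S41.H105.mem_range_incl_iff hq hqN m).mpr (hcop.dvd_of_dvd_mul_left hqg)
  · have h0 : ∀ χ : Additive (Gamma0 (N * q)) →+ A, t₁ N q χ = 0 := by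
      intro χ
      unfold t₁ transferAlong
      rw [dif_neg (fun h => hfin h.2)]
    rw [h0, h0, Uq_zero719]

/-- Conjugation of the `U_{q'}` representatives by `diag(q, 1)`. -/
theorem diag_conj_uqRep (hq : q ≠ 0) (j : ZMod q') :
    ∃ (u : Gamma0 N) (j' : ZMod q'),
      heckeDiagMatrix q * uqRep q' j * (heckeDiagMatrix q)⁻¹ = ιN N u * uqRep q' j' := by
  obtain ⟨T, Y, hmod⟩ : ∃ (T : ℕ) (Y : ZMod q'),
      ((Y.val : ℕ) : ℝ) + (T : ℝ) * q' = (q : ℝ) * j.val := by
    refine ⟨q * j.val / q', ((q * j.val : ℕ) : ZMod q'), ?_⟩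
    rw [ZMod.val_natCast]
    have := Nat.mod_add_div (q * j.val) q'
    have h2 : (((q * j.val) % q' + q' * (q * j.val / q') : ℕ) : ℝ) = ((q * j.val : ℕ) : ℝ) := by
      rw [this]
    push_cast at h2
    linarith
  obtain ⟨u00, u01, u10, u11⟩ := mkGamma0_apply N 1 (T : ℤ) 0 1 (by ring) (dvd_zero _)
  refine ⟨mkGamma0 N 1 (T : ℤ) 0 1 (by ring) (dvd_zero _), Y, ?_⟩
  rw [mul_inv_eq_iff_eq_mul]
  apply gl_ext <;>
    simp only [coe_mul_apply, coe_ιN_apply, coe_uqRep, val_heckeDiagMatrix hq,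
      Matrix.of_apply, Matrix.cons_val', Matrix.cons_val_zero, Matrix.cons_val_one,
      Matrix.cons_val_fin_one, u00, u01, u10, u11] <;>
    push_cast
  · ring
  · linear_combination (-1 : ℝ) * hmod
  · ring
  · ring

/-- `U_{q'} t₂ = t₂ U_{q'}` for `q' ∣ N` (any `q ≠ 0`). -/
theorem Uq_t₂ (hq0 : q ≠ 0) (hq' : q' ∣ N) (hq'' : q' ∣ N * q)
    (ψ : Additive (Gamma0 (N * q)) →+ A) :
    Uq hq' (t₂ N q ψ) = t₂ N q (Uq hq'' ψ) := by
  by_cases hfin : (conjDelta N q).range.FiniteIndex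
  · refine sysTransfer_transferAlong (uqSystem hq') (uqSystem hq'') (conjDelta N q)
      (Fermat.Agent.S41.H105.conjDelta_injective N hq0) (heckeDiagMatrix q) (diag_rel hq0)
      (diag_conj_uqRep hq0) ?_ ψ
    intro y y' m g Q hQ e
    have q01 := congrArg (fun M : GL (Fin 2) ℝ => (M : Matrix (Fin 2) (Fin 2) ℝ) 0 1) hQ
    have q11 := congrArg (fun M : GL (Fin 2) ℝ => (M : Matrix (Fin 2) (Fin 2) ℝ) 1 1) hQ
    have e01 := congrArg (fun M : GL (Fin 2) ℝ => (M : Matrix (Fin 2) (Fin 2) ℝ) 0 1) e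
    simp only [coe_mul_apply, coe_ιN_apply, val_heckeDiagMatrix hq0, Matrix.of_apply,
      Matrix.cons_val', Matrix.cons_val_zero, Matrix.cons_val_one, Matrix.cons_val_fin_one,
      zero_mul, zero_add, mul_zero, add_zero, one_mul, mul_one] at q01 q11
    simp only [coe_mul_apply, coe_ιN_apply, coe_uqRep, Matrix.of_apply, Matrix.cons_val',
      Matrix.cons_val_zero, Matrix.cons_val_one, Matrix.cons_val_fin_one, one_mul] at e01
    rw [q11] at e01
    -- `m01 = q * (g00 * j' + g01 * q' - j * m11)`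
    have key : (((m : SL(2, ℤ)) 0 1 : ℤ) : ℝ) =
        (q : ℝ) * ((((g : SL(2, ℤ)) 0 0 : ℤ) : ℝ) * (y'.val : ℝ)
          + (((g : SL(2, ℤ)) 0 1 : ℤ) : ℝ) * (q' : ℝ)
          - (y.val : ℝ) * (((m : SL(2, ℤ)) 1 1 : ℤ) : ℝ)) := by
      rw [← q01]
      linear_combination (q : ℝ) * e01
    have key' : (m : SL(2, ℤ)) 0 1 =
        q * ((g : SL(2, ℤ)) 0 0 * (y'.val : ℤ) + (g : SL(2, ℤ)) 0 1 * (q' : ℤ)
          - (y.val : ℤ) * (m : SL(2, ℤ)) 1 1) := by
      exact_mod_cast key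
    exact (Fermat.Agent.S41.H105.mem_range_conjDelta_iff N hq0 m).mpr ⟨_, key'⟩
  · have h0 : ∀ χ : Additive (Gamma0 (N * q)) →+ A, t₂ N q χ = 0 := by
      intro χ
      unfold t₂ transferAlong
      rw [dif_neg (fun h => hfin h.2)]
    rw [h0, h0, Uq_zero719]

end Level

end Fermat.Agent.S38.H719
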