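import Mathlib
import Fermat.Agent.S38.H719.UqCross

/-!
# HARD / HECKE + S59 AUT leaf CTRL: cross-level commutation of `U_{q'}` with `r₁`, `r₂` (helper719)

Levels `N` and `N q`, `q' ∣ N` a prime, `r₁, r₂ : Hom(Γ₀(N), A) → Hom(Γ₀(N q), A)` the degeneracy
maps of row S41.

* `Uq_r₁` : `U_{q'} (r₁ φ) = r₁ (U_{q'} φ)` (any `q`);
* `Uq_r₂` : `U_{q'} (r₂ φ) = r₂ (U_{q'} φ)` (`q` prime to `q'`).

Together with `Uq_t₁`, `Uq_t₂` (`UqCross.lean`): `U_{q'}` commutes with all four degeneracy maps at `q`.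
-/

set_option autoImplicit false

namespace Fermat.Agent.S38.H719

open CongruenceSubgroup Matrix.SpecialLinearGroup ModularForm
open Fermat.Agent.S29.H642 Fermat.Agent.S41.Spec Fermat.Agent.S41.H761 Fermat.Agent.S59.H105
open P2MW.S_ModularForm_heckeT_slash_eq_self_of_mem_Gamma0.ModularForm.HeckeSlashInvariance
open scoped MatrixGroups

variable {N q q' : ℕ} [Fact q'.Prime] {A : Type*} [AddCommGroup A]

/-- `U_{q'} r₁ = r₁ U_{q'}` for `q' ∣ N`. -/
theorem Uq_r₁ (hq' : q' ∣ N) (hq'' : q' ∣ N * q) (φ : Additive (Gamma0 N) →+ A) :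
    Uq hq'' (r₁ N q φ) = r₁ N q (Uq hq' φ) := by
  have hd : ∀ g' : Gamma0 (N * q), (1 : GL (Fin 2) ℝ) * ιN (N * q) g' =
      ιN N (incl N q g') * 1 := fun g' => by rw [one_mul, mul_one]; rfl
  have s1 := IsCosetSystem.single (ι' := ιN (N * q)) (ιN_injective N) (incl N q) 1 hd
  have hr : ∀ ψ : Additive (Gamma0 N) →+ A, r₁ N q ψ = s1.transfer ψ := fun ψ =>
    (IsCosetSystem.single_transfer (ι' := ιN (N * q)) (ιN_injective N) (incl N q) 1 hd ψ).symm
  have famL := s1.prod (uqSystem (M := N * q) hq'') (by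
    intro i i' j j' g e
    refine ⟨rfl, ?_⟩
    rw [one_mul, one_mul] at e
    exact (uqSystem hq').eq_of_mul j j' g e)
  have famR := (uqSystem (M := N) hq').prod s1 (by
    intro j j' i i' g e
    refine ⟨?_, rfl⟩
    rw [mul_one, mul_one] at e
    exact (uqSystem hq').eq_of_mul j j' g e)
  show (uqSystem hq'').transfer (r₁ N q φ) = r₁ N q ((uqSystem hq').transfer φ)
  rw [hr, hr, IsCosetSystem.transfer_comp s1 (uqSystem hq'') famL,
    IsCosetSystem.transfer_comp (uqSystem hq') s1 famR]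
  refine IsCosetSystem.transfer_eq_of_le_of_card famL famR ?_ ?_ φ
  · rw [Fintype.card_prod, Fintype.card_prod, mul_comm]
  · rintro ⟨i, j⟩
    exact ⟨(j, i), 1, by simp⟩

/-- `U_{q'} r₂ = r₂ U_{q'}` for `q' ∣ N`, `q` prime to `q'`. -/
theorem Uq_r₂ (hq0 : q ≠ 0) (hcop : Nat.Coprime q q') (hq' : q' ∣ N) (hq'' : q' ∣ N * q)
    (φ : Additive (Gamma0 N) →+ A) :
    Uq hq'' (r₂ N q φ) = r₂ N q (Uq hq' φ) := by
  have hq'0 : q' ≠ 0 := (Fact.out : q'.Prime).ne_zero
  have s2 := IsCosetSystem.single (ι' := ιN (N * q)) (ιN_injective N) (conjDelta N q)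
    (heckeDiagMatrix q) (diag_rel hq0)
  have hr : ∀ ψ : Additive (Gamma0 N) →+ A, r₂ N q ψ = s2.transfer ψ := fun ψ =>
    (IsCosetSystem.single_transfer (ι' := ιN (N * q)) (ιN_injective N) (conjDelta N q)
      (heckeDiagMatrix q) (diag_rel hq0) ψ).symm
  have famL := s2.prod (uqSystem (M := N * q) hq'') (by
    intro i i' j j' g e
    refine ⟨rfl, ?_⟩
    -- `d ρ_j = g d ρ_j'` forces `q (j - j') = g₀₁ q'`
    have e00 := congrArg (fun M : GL (Fin 2) ℝ => (M : Matrix (Fin 2) (Fin 2) ℝ) 0 0) e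
    have e01 := congrArg (fun M : GL (Fin 2) ℝ => (M : Matrix (Fin 2) (Fin 2) ℝ) 0 1) e
    simp only [coe_mul_apply, coe_ιN_apply, coe_uqRep, val_heckeDiagMatrix hq0, Matrix.of_apply,
      Matrix.cons_val', Matrix.cons_val_zero, Matrix.cons_val_one, Matrix.cons_val_fin_one,
      mul_zero, add_zero, mul_one, zero_mul, zero_add] at e00 e01
    have hq0' : (q : ℝ) ≠ 0 := by exact_mod_cast hq0
    have h00 : (((g : SL(2, ℤ)) 0 0 : ℤ) : ℝ) = 1 := by
      have : (((g : SL(2, ℤ)) 0 0 : ℤ) : ℝ) * q = 1 * q := by rw [one_mul]; linarith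
      exact mul_right_cancel₀ hq0' this
    rw [h00] at e01
    have key : (q : ℤ) * ((j.val : ℤ) - (j'.val : ℤ)) = (g : SL(2, ℤ)) 0 1 * (q' : ℤ) := by
      have : ((q : ℝ) * ((j.val : ℝ) - (j'.val : ℝ))) =
          (((g : SL(2, ℤ)) 0 1 : ℤ) : ℝ) * (q' : ℝ) := by linarith
      exact_mod_cast this
    have hcop' : IsCoprime (q' : ℤ) (q : ℤ) := by
      rw [Int.isCoprime_iff_gcd_eq_one, Int.gcd_natCast_natCast]
      exact hcop.symm
    have hdvd : (q' : ℤ) ∣ (j.val : ℤ) - (j'.val : ℤ) :=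
      hcop'.dvd_of_dvd_mul_left ⟨_, by rw [key]; ring⟩
    have hz : ((j.val : ℤ) : ZMod q') = ((j'.val : ℤ) : ZMod q') := by
      rw [← sub_eq_zero, ← Int.cast_sub]
      exact (ZMod.intCast_zmod_eq_zero_iff_dvd _ _).mpr hdvd
    simpa using hz)
  have famR := (uqSystem (M := N) hq').prod s2 (by
    intro j j' i i' g e
    refine ⟨?_, rfl⟩
    have e2 : uqRep q' j = ιN N g * uqRep q' j' := by
      have := mul_right_cancel (e.trans (mul_assoc _ _ _).symm)
      exact this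
    exact (uqSystem hq').eq_of_mul j j' g e2)
  show (uqSystem hq'').transfer (r₂ N q φ) = r₂ N q ((uqSystem hq').transfer φ)
  rw [hr, hr, IsCosetSystem.transfer_comp s2 (uqSystem hq'') famL,
    IsCosetSystem.transfer_comp (uqSystem hq') s2 famR]
  refine IsCosetSystem.transfer_eq_of_le_of_card famL famR ?_ ?_ φ
  · rw [Fintype.card_prod, Fintype.card_prod, mul_comm]
  · rintro ⟨i, j⟩
    obtain ⟨u, j₁, hu⟩ := diag_conj_uqRep (N := N) hq0 j
    refine ⟨(j₁, i), u, ?_⟩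
    show heckeDiagMatrix q * uqRep q' j = ιN N u * (uqRep q' j₁ * heckeDiagMatrix q)
    rw [← mul_assoc, ← hu, inv_mul_cancel_right]

end Fermat.Agent.S38.H719
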