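import Mathlib
import Fermat.Agent.S41.H761.HT
import Fermat.Agent.S59.H105.CtrlOps
import Fermat.Agent.S38.H719.UqCross

/-!
# HARD / HECKE, leaf CTRL-MIN, part (ii-b): the multi-prime (MIN) chain (helper719)

`O` a commutative ring, `ϖ ∈ O`, `A` an `O`-module which is `ϖ`-adically separated, `H_M = Hom(Γ₀(M), A)`.

* `TopNilAt ϖ f x` : `f` is topologically nilpotent at `x` (`∀ n, ∃ k, f^k x ∈ ϖ^n H`);
* `IsPart O A ϖ Ipr c Qs α M x` : `x ∈ H_M` lies in the generalized eigen-part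
  "`T_l ≡ c_l` (`l ∈ Ipr`, `l ∤ M`), `U_q ≡ α_q` (`q ∈ Qs`, `q ∣ M`)"; no idempotent is needed;
* `isPart_t₁`, `isPart_t₂` : the transfers `t₁, t₂ : H_{N q} → H_N` (`q ∤ N`, `q ∉ Ipr`) map the part
  `(Ipr, Qs ∪ {q})` of level `N q` into the part `(Ipr, Qs)` of level `N`
  (`S41.H761.heckeTransferComm` and `Uq_t₁`, `Uq_t₂` of `UqCross.lean`);
* `eq_zero_of_sq_fix` : `U² x = x`, `U - α` topologically nilpotent at `x`, `α² - 1` a unit `⟹ x = 0`;
* `eq_zero_of_isPart_step` : if the part of level `N` vanishes, so does the part of level `N q`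
  with the extra condition `U_q ≡ α_q`, `α_q² - 1` a unit (NO Galois input: `U_q² = 1` on the new classes,
  `S59.H105.Uq_Uq_of_new`);
* `eq_zero_of_isPart_chain` : the same for a list of primes `q₁, …, q_r`: (MIN) at level `N'`
  implies the vanishing of the Taylor–Wiles part at level `N' q₁ ⋯ q_r`.
-/

set_option autoImplicit false

namespace Fermat.Agent.S38.H719

open CongruenceSubgroup Matrix.SpecialLinearGroup
open Fermat.Agent.S29.H642 Fermat.Agent.S41 Fermat.Agent.S41.Spec Fermat.Agent.S41.H761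
open Fermat.Agent.S59.H105
open scoped MatrixGroups

universe u v

/-! ## Abstract part (Mathlib only) -/

section Abstract

variable {Λ : Type*} [CommRing Λ] {M M' : Type*} [AddCommGroup M] [Module Λ M]
  [AddCommGroup M'] [Module Λ M']

/-- `f` is topologically nilpotent at `x`: for every `n` some iterate `f^k x` is divisible by
`ϖ^n`. -/
def TopNilAt (ϖ : Λ) (f : M →ₗ[Λ] M) (x : M) : Prop :=
  ∀ n : ℕ, ∃ (k : ℕ) (z : M), f^[k] x = ϖ ^ n • z

theorem iterate_intertwine {f : M →ₗ[Λ] M} {f' : M' →ₗ[Λ] M'} (g : M →ₗ[Λ] M')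
    (hg : ∀ x, g (f x) = f' (g x)) (k : ℕ) : ∀ x, g (f^[k] x) = f'^[k] (g x) := by
  induction k with
  | zero => exact fun x => rfl
  | succ k ih =>
    intro x
    rw [Function.iterate_succ_apply, Function.iterate_succ_apply, ih, hg]

/-- Topological nilpotence is transported by intertwining maps. -/
theorem TopNilAt.map {ϖ : Λ} {f : M →ₗ[Λ] M} {f' : M' →ₗ[Λ] M'} (g : M →ₗ[Λ] M')
    (hg : ∀ x, g (f x) = f' (g x)) {x : M} (hx : TopNilAt ϖ f x) : TopNilAt ϖ f' (g x) := by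
  intro n
  obtain ⟨k, z, hz⟩ := hx n
  exact ⟨k, g z, by rw [← iterate_intertwine g hg, hz, map_smul]⟩

theorem TopNilAt.zero (ϖ : Λ) (f : M →ₗ[Λ] M) : TopNilAt ϖ f 0 := by
  intro n
  refine ⟨0, 0, ?_⟩
  rw [Function.iterate_zero_apply, smul_zero]

theorem iterate_smul719 (f : M →ₗ[Λ] M) (k : ℕ) (a : Λ) : ∀ x, f^[k] (a • x) = a • f^[k] x := by
  induction k with
  | zero => exact fun x => rfl
  | succ k ih =>
    intro x
    rw [Function.iterate_succ_apply, Function.iterate_succ_apply, map_smul, ih]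

/-- **Key lemma.**  If `U² x = x`, `U - α` is topologically nilpotent at `x` and `α² - 1` is a
unit, then `x = 0` (in a `ϖ`-adically separated module). -/
theorem eq_zero_of_sq_fix {ϖ α : Λ} (hα : IsUnit (α ^ 2 - 1)) (U : M →ₗ[Λ] M)
    (hsep : ∀ x : M, (∀ n : ℕ, ∃ z : M, x = ϖ ^ n • z) → x = 0)
    {x : M} (hx : U (U x) = x) (hnil : TopNilAt ϖ (shiftBy U α) x) : x = 0 := by
  obtain ⟨β, hβ⟩ := hα.exists_left_inv
  -- `v = -β (U + α)` is inverse to `a = U - α` on `E = {U² = 1}`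
  let v : M →ₗ[Λ] M := (-β) • (U + α • LinearMap.id)
  have hva : ∀ y : M, U (U y) = y → v (shiftBy U α y) = y := by
    intro y hy
    have h1 : v (shiftBy U α y) = (-β) • (U (U y) - (α ^ 2) • y) := by
      show (-β) • (U (U y - α • y) + α • (U y - α • y)) = _
      rw [map_sub, map_smul, smul_sub, smul_smul, pow_two]
      congr 1
      abel
    rw [h1, hy]
    have h2 : y - α ^ 2 • y = (-(α ^ 2 - 1)) • y := by
      rw [neg_sub, sub_smul, one_smul]
    rw [h2, smul_smul, neg_mul_neg, hβ, one_smul]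
  have hEa : ∀ y : M, U (U y) = y → U (U (shiftBy U α y)) = shiftBy U α y := by
    intro y hy
    rw [shiftBy_apply, map_sub, map_sub, map_smul, map_smul, hy]
  have key : ∀ k : ℕ, ∀ y : M, U (U y) = y → y = v^[k] ((shiftBy U α)^[k] y) := by
    intro k
    induction k with
    | zero => exact fun y _ => rfl
    | succ k ih =>
      intro y hy
      have e1 : (shiftBy U α)^[k + 1] y = (shiftBy U α)^[k] (shiftBy U α y) :=
        Function.iterate_succ_apply _ _ _
      have e2 : ∀ w : M, v^[k + 1] w = v (v^[k] w) := fun w =>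
        Function.iterate_succ_apply' _ _ _
      rw [e1, e2, ← ih _ (hEa y hy), hva y hy]
  apply hsep
  intro n
  obtain ⟨k, z, hz⟩ := hnil n
  refine ⟨v^[k] z, ?_⟩
  rw [← iterate_smul719, ← hz]
  exact key k x hx

end Abstract

/-! ## The generalized eigen-parts of `Hom(Γ₀(M), A)` -/

section Part

variable (O : Type v) [CommRing O] (A : Type u) [AddCommGroup A] [Module O A]

/-- `x ∈ Hom(Γ₀(M), A)` lies in the generalized eigen-part `T_l ≡ c_l` (`l ∈ Ipr`, `l ∤ M`),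
`U_q ≡ α_q` (`q ∈ Qs`, `q ∣ M`). -/
def IsPart (ϖ : O) (Ipr : Set ℕ) (c : ℕ → O) (Qs : Set ℕ) (α : ℕ → O) (M : ℕ)
    (x : Additive (Gamma0 M) →+ A) : Prop :=
  (∀ (l : ℕ) [Fact l.Prime] (hl : ¬ l ∣ M), l ∈ Ipr →
    TopNilAt ϖ (shiftBy (TlL O A hl) (c l)) x) ∧
  (∀ (q' : ℕ) [Fact q'.Prime] (hq' : q' ∣ M), q' ∈ Qs →
    TopNilAt ϖ (shiftBy (UqL O A hq') (α q')) x)

variable {O A} {ϖ : O} {Ipr : Set ℕ} {c : ℕ → O} {Qs Qs' : Set ℕ} {α : ℕ → O}

theorem IsPart.mono {M : ℕ} {x : Additive (Gamma0 M) →+ A} (h : IsPart O A ϖ Ipr c Qs α M x)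
    (hQ : Qs' ⊆ Qs) : IsPart O A ϖ Ipr c Qs' α M x :=
  ⟨h.1, fun q' _ hq' hmem => h.2 q' hq' (hQ hmem)⟩

variable {N q : ℕ}

/-- `t₁` maps the part of level `N q` into the part of level `N`. -/
theorem isPart_t₁ (hN : N ≠ 0) (hq : q.Prime) (hqN : ¬ q ∣ N) (hqI : q ∉ Ipr)
    {x : Additive (Gamma0 (N * q)) →+ A} (hx : IsPart O A ϖ Ipr c (insert q Qs) α (N * q) x) :
    IsPart O A ϖ Ipr c Qs α N (t₁ N q x) := by
  have hNq : N * q ≠ 0 := Nat.mul_ne_zero hN hq.ne_zero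
  refine ⟨fun l _ hl hlI => ?_, fun q' _ hq' hq'Q => ?_⟩
  · have hlp : l.Prime := Fact.out
    have hl' : ¬ l ∣ N * q := by
      intro h
      rcases hlp.dvd_mul.mp h with h1 | h1
      · exact hl h1
      · exact hqI (((Nat.prime_dvd_prime_iff_eq hlp hq).mp h1) ▸ hlI)
    refine (hx.1 l hl' hlI).map (t₁L O A N q) fun y => ?_
    rw [shiftBy_apply, shiftBy_apply, map_sub, map_smul]
    congr 1
    exact ((heckeTransferComm.{u} N q l hl hl' hNq A y).1).symm
  · have hq'' : q' ∣ N * q := Dvd.dvd.mul_right hq' q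
    refine (hx.2 q' hq'' (Set.mem_insert_of_mem q hq'Q)).map (t₁L O A N q) fun y => ?_
    rw [shiftBy_apply, shiftBy_apply, map_sub, map_smul]
    congr 1
    exact (Uq_t₁ hq hqN hq' hq'' y).symm

/-- `t₂` maps the part of level `N q` into the part of level `N`. -/
theorem isPart_t₂ (hN : N ≠ 0) (hq : q.Prime) (hqI : q ∉ Ipr)
    {x : Additive (Gamma0 (N * q)) →+ A} (hx : IsPart O A ϖ Ipr c (insert q Qs) α (N * q) x) :
    IsPart O A ϖ Ipr c Qs α N (t₂ N q x) := by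
  have hNq : N * q ≠ 0 := Nat.mul_ne_zero hN hq.ne_zero
  refine ⟨fun l _ hl hlI => ?_, fun q' _ hq' hq'Q => ?_⟩
  · have hlp : l.Prime := Fact.out
    have hl' : ¬ l ∣ N * q := by
      intro h
      rcases hlp.dvd_mul.mp h with h1 | h1
      · exact hl h1
      · exact hqI (((Nat.prime_dvd_prime_iff_eq hlp hq).mp h1) ▸ hlI)
    refine (hx.1 l hl' hlI).map (t₂L O A N q) fun y => ?_
    rw [shiftBy_apply, shiftBy_apply, map_sub, map_smul]
    congr 1
    exact ((heckeTransferComm.{u} N q l hl hl' hNq A y).2).symm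
  · have hq'' : q' ∣ N * q := Dvd.dvd.mul_right hq' q
    refine (hx.2 q' hq'' (Set.mem_insert_of_mem q hq'Q)).map (t₂L O A N q) fun y => ?_
    rw [shiftBy_apply, shiftBy_apply, map_sub, map_smul]
    congr 1
    exact (Uq_t₂ hq.ne_zero hq' hq'' y).symm

/-- **One step of the (MIN) chain.**  If the part `(Ipr, Qs)` of level `N` vanishes, then so does
the part `(Ipr, Qs ∪ {q})` of level `N q`, for a prime `q ∤ N`, `q ∉ Ipr` with `α_q² - 1` a unit. -/
theorem eq_zero_of_isPart_step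
    (hsepA : ∀ a : A, (∀ n : ℕ, ∃ z : A, a = ϖ ^ n • z) → a = 0)
    (hN : N ≠ 0) (hq : q.Prime) (hqN : ¬ q ∣ N) (hqI : q ∉ Ipr) (hα : IsUnit (α q ^ 2 - 1))
    (hvan : ∀ y : Additive (Gamma0 N) →+ A, IsPart O A ϖ Ipr c Qs α N y → y = 0)
    (x : Additive (Gamma0 (N * q)) →+ A) (hx : IsPart O A ϖ Ipr c (insert q Qs) α (N * q) x) :
    x = 0 := by
  have : Fact q.Prime := ⟨hq⟩
  have h₁ : t₁ N q x = 0 := hvan _ (isPart_t₁ hN hq hqN hqI hx)
  have h₂ : t₂ N q x = 0 := hvan _ (isPart_t₂ hN hq hqI hx)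
  have hUU : UqL O A (dvd_mul_self_left N q) (UqL O A (dvd_mul_self_left N q) x) = x :=
    Uq_Uq_of_new hqN x h₁ h₂
  exact eq_zero_of_sq_fix hα (UqL O A (dvd_mul_self_left N q)) (sepOn_top O A ϖ hsepA) hUU
    (hx.2 q (dvd_mul_self_left N q) (Set.mem_insert q Qs))

/-- **The (MIN) chain.**  `L = [q₁, …, q_r]` distinct primes not dividing `N`, outside `Ipr`, with
`α_q² - 1` units.  If the part `(Ipr, Qs)` of level `N` vanishes, then so does the part
`(Ipr, Qs ∪ L)` of level `N q₁ ⋯ q_r` (`= L.foldl (· * ·) N`). -/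
theorem eq_zero_of_isPart_chain
    (hsepA : ∀ a : A, (∀ n : ℕ, ∃ z : A, a = ϖ ^ n • z) → a = 0) (L : List ℕ) :
    ∀ (N : ℕ) (Qs : Set ℕ), N ≠ 0 → L.Nodup →
      (∀ q ∈ L, q.Prime ∧ ¬ q ∣ N ∧ q ∉ Ipr ∧ IsUnit (α q ^ 2 - 1)) →
      (∀ y : Additive (Gamma0 N) →+ A, IsPart O A ϖ Ipr c Qs α N y → y = 0) →
      ∀ x : Additive (Gamma0 (L.foldl (· * ·) N)) →+ A,
        IsPart O A ϖ Ipr c (Qs ∪ {q | q ∈ L}) α (L.foldl (· * ·) N) x → x = 0 := by
  induction L with
  | nil =>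
    intro N Qs _ _ _ hvan x hx
    exact hvan x (hx.mono Set.subset_union_left)
  | cons q L ih =>
    intro N Qs hN hnd hL hvan x hx
    obtain ⟨hq, hqN, hqI, hα⟩ := hL q List.mem_cons_self
    have hnd' := List.nodup_cons.mp hnd
    refine ih (N * q) (insert q Qs) (Nat.mul_ne_zero hN hq.ne_zero) hnd'.2 ?_
      (eq_zero_of_isPart_step hsepA hN hq hqN hqI hα hvan) x (hx.mono ?_)
    · intro q' hq'
      obtain ⟨hq'p, hq'N, hq'I, hα'⟩ := hL q' (List.mem_cons_of_mem q hq')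
      refine ⟨hq'p, ?_, hq'I, hα'⟩
      intro h
      rcases hq'p.dvd_mul.mp h with h1 | h1
      · exact hq'N h1
      · have : q' = q := (Nat.prime_dvd_prime_iff_eq hq'p hq).mp h1
        exact hnd'.1 (this ▸ hq')
    · intro z hz
      rcases hz with hz | hz
      · rcases hz with rfl | hz
        · exact Or.inr List.mem_cons_self
        · exact Or.inl hz
      · exact Or.inr (List.mem_cons_of_mem q hz)

end Part

end Fermat.Agent.S38.H719
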