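import Mathlib
import Fermat.Agent.S59.MFree.Main

/-!
# HARD / HECKE, leaf CTRL-MIN, part (i): Nakayama descent from the M-FREE conclusion (helper719)

Setting of `S59/MFree/Spec.lean`: `Γ ≤ SL(2,ℤ)`, `κ : Γ →* D` onto a finite group, `Γ' = ker κ`,
`H = Hom(Γ', O)`, `e` an `O`-linear operator on `H` (a Hecke-type projector), `cor : H → Hom(Γ, O)` the
transfer.  From `FreeConclusion κ O e` (the output of `MFree.free` / `MFree.freeAbs`):

* `corL κ`                          — `cor` as an `O`-linear map;
* `linearIndependent_cor_basis`     — for the `O[D]`-basis `b` of `e H`, the family `cor (b i)` is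
                                      `O`-linearly independent in `Hom(Γ, O)`;
* `cor_ne_zero_of_freeConclusion`   — **descent**: if `e H ≠ 0` then `cor (e H) ≠ 0`;
* `exists_rank_of_freeConclusion`   — the rank statement: `e H` has `O`-rank `|D| · n` and contains `n`
                                      elements whose transfers are linearly independent;
* `eH_eq_zero_of_cor_eq_zero`       — contrapositive ("(MIN) at level `Γ` kills level `Γ'`"): if `cor`
                                      vanishes on `e H`, then `e H = 0`.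

No hypothesis on `O` beyond `CommRing` (`Nontrivial` for the descent), none on `e` beyond the
`FreeConclusion`.
-/

set_option autoImplicit false

namespace Fermat.Agent.S38.H719

open Fermat.Agent.S59.MFree
open scoped MatrixGroups

universe u

section NakDesc

variable {Γ : Subgroup SL(2, ℤ)} {D : Type} [Group D] [Fintype D] (κ : Γ →* D)
variable {O : Type u} [CommRing O]

/-- `cor` as an `O`-linear map. -/
noncomputable def corL : (Additive (kerSub κ) →+ O) →ₗ[O] (Additive Γ →+ O) where
  toFun := cor κ
  map_add' x y := H587.cor_add κ x y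
  map_smul' c x := H587.cor_smul κ c x

@[simp] theorem corL_apply (x : Additive (kerSub κ) →+ O) : corL κ x = cor κ x := rfl

/-- The translates `d • b j` of a family `b`, through a section `s` of `κ`. -/
def translates {n : ℕ} (s : D → Γ) (b : Fin n → (Additive (kerSub κ) →+ O)) :
    D × Fin n → (Additive (kerSub κ) →+ O) :=
  fun z => conjAct κ (s z.1) (b z.2)

variable {κ}

omit [Fintype D] in
theorem conjAct_translates {n : ℕ} {s : D → Γ} (hs : ∀ d, κ (s d) = d)
    (b : Fin n → (Additive (kerSub κ) →+ O)) (g : Γ) (z : D × Fin n) :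
    conjAct κ g (translates κ s b z) = translates κ s b (κ g * z.1, z.2) := by
  unfold translates
  rw [← H761.conjAct_mul]
  refine H57.conjAct_congr57 κ (b z.2) ?_
  rw [hs, map_mul, hs]

omit [Fintype D] in
theorem translates_one {n : ℕ} {s : D → Γ} (hs : ∀ d, κ (s d) = d)
    (b : Fin n → (Additive (kerSub κ) →+ O)) (i : Fin n) :
    translates κ s b (1, i) = b i := by
  unfold translates
  have h1 : conjAct κ (s 1) (b i) = conjAct κ 1 (b i) :=
    H57.conjAct_congr57 κ (b i) (by rw [hs, map_one])
  rw [h1, H761.conjAct_one]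

omit [Fintype D] in
/-- The diamond operator of `g` on a linear combination of translates. -/
theorem conjAct_linearCombination {n : ℕ} {s : D → Γ} (hs : ∀ d, κ (s d) = d)
    (b : Fin n → (Additive (kerSub κ) →+ O)) (g : Γ) (f : (D × Fin n) →₀ O) :
    conjAct κ g (Finsupp.linearCombination O (translates κ s b) f) =
      Finsupp.linearCombination O (translates κ s b)
        (Finsupp.mapDomain (fun z : D × Fin n => (κ g * z.1, z.2)) f) := by
  have h1 : conjAct κ g (Finsupp.linearCombination O (translates κ s b) f) =
      H761.conjL κ g (Finsupp.linearCombination O (translates κ s b) f) := rfl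
  have h2 : (⇑(H761.conjL κ g) ∘ translates κ s b) =
      (translates κ s b ∘ fun z : D × Fin n => (κ g * z.1, z.2)) :=
    funext fun z => conjAct_translates hs b g z
  rw [h1, Finsupp.apply_linearCombination O (H761.conjL κ g) (translates κ s b) f, h2,
    Finsupp.linearCombination_mapDomain]

omit [Fintype D] in
/-- The augmentation span lies in the image of the kernel of the "sum over `D`" map. -/
theorem augSpan_le_map_ker {n : ℕ} {s : D → Γ} (hs : ∀ d, κ (s d) = d)
    (e : (Additive (kerSub κ) →+ O) →ₗ[O] (Additive (kerSub κ) →+ O))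
    (b : Fin n → (Additive (kerSub κ) →+ O))
    (hspan : ∀ x, e x = x → x ∈ Submodule.span O (Set.range (translates κ s b))) :
    Submodule.span O {w | ∃ (g : Γ) (y : Additive (kerSub κ) →+ O),
        e y = y ∧ w = conjAct κ g y - y} ≤
      (LinearMap.ker (Finsupp.lmapDomain O O (Prod.snd : D × Fin n → Fin n))).map
        (Finsupp.linearCombination O (translates κ s b)) := by
  refine Submodule.span_le.mpr ?_
  rintro w ⟨g, y, hy, rfl⟩
  obtain ⟨f, rfl⟩ := (Finsupp.mem_span_range_iff_exists_finsupp).1 (hspan y hy)
  refine ⟨Finsupp.mapDomain (fun z : D × Fin n => (κ g * z.1, z.2)) f - f, ?_, ?_⟩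
  · rw [SetLike.mem_coe, LinearMap.mem_ker, map_sub, Finsupp.lmapDomain_apply,
      Finsupp.lmapDomain_apply, ← Finsupp.mapDomain_comp, sub_eq_zero]
    rfl
  · have h2 := conjAct_linearCombination hs b g f
    rw [map_sub, ← h2]
    simp only [Finsupp.linearCombination_apply]

/-- Core: in a free `O[D]`-module with control, the transfers of the basis are linearly
independent. -/
theorem linearIndependent_cor_of_basis {n : ℕ} {s : D → Γ} (hs : ∀ d, κ (s d) = d)
    (e : (Additive (kerSub κ) →+ O) →ₗ[O] (Additive (kerSub κ) →+ O))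
    (b : Fin n → (Additive (kerSub κ) →+ O)) (hb : ∀ i, e (b i) = b i)
    (hli : LinearIndependent O (translates κ s b))
    (hspan : ∀ x, e x = x → x ∈ Submodule.span O (Set.range (translates κ s b)))
    (hker : ∀ x, e x = x → cor κ x = 0 →
      x ∈ Submodule.span O {w | ∃ (g : Γ) (y : Additive (kerSub κ) →+ O),
        e y = y ∧ w = conjAct κ g y - y}) :
    LinearIndependent O (fun i => cor κ (b i)) := by
  rw [linearIndependent_iff]
  intro c hc
  -- the element `x = ∑ c i • b i`
  set x : Additive (kerSub κ) →+ O := Finsupp.linearCombination O b c with hx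
  have hex : e x = x := by
    have h0 : (⇑e ∘ b) = b := funext hb
    rw [hx, Finsupp.apply_linearCombination O e b c, h0]
  have hcor : cor κ x = 0 := by
    have h1 : corL κ x = Finsupp.linearCombination O (fun i => cor κ (b i)) c := by
      rw [hx, Finsupp.apply_linearCombination O (corL κ) b c]
      rfl
    rw [← corL_apply, h1, hc]
  obtain ⟨f, hf, hfx⟩ := augSpan_le_map_ker hs e b hspan (hker x hex hcor)
  -- `x` is also the combination of the translates with coefficients `c` placed at `d = 1`
  have hx2 : Finsupp.linearCombination O (translates κ s b)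
      (Finsupp.mapDomain (fun i : Fin n => ((1 : D), i)) c) = x := by
    have h0 : (translates κ s b ∘ fun i : Fin n => ((1 : D), i)) = b :=
      funext fun i => translates_one hs b i
    rw [Finsupp.linearCombination_mapDomain, hx, h0]
  have hfc : f = Finsupp.mapDomain (fun i : Fin n => ((1 : D), i)) c :=
    hli (by rw [hfx, hx2])
  have h3 : Finsupp.mapDomain (Prod.snd : D × Fin n → Fin n) f = 0 := by
    have := LinearMap.mem_ker.1 hf
    rwa [Finsupp.lmapDomain_apply] at this
  rw [hfc, ← Finsupp.mapDomain_comp] at h3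
  have h4 : (Prod.snd ∘ fun i : Fin n => ((1 : D), i)) = id := rfl
  rwa [h4, Finsupp.mapDomain_id] at h3

/-- For the basis produced by `FreeConclusion`, the transfers are linearly independent. -/
theorem linearIndependent_cor_basis (hκ : Function.Surjective κ)
    (e : (Additive (kerSub κ) →+ O) →ₗ[O] (Additive (kerSub κ) →+ O))
    (hfree : FreeConclusion κ O e) :
    ∃ (n : ℕ) (b : Fin n → (Additive (kerSub κ) →+ O)), (∀ i, e (b i) = b i) ∧
      (∀ s : D → Γ, (∀ d, κ (s d) = d) →
        LinearIndependent O (fun z : D × Fin n => conjAct κ (s z.1) (b z.2)) ∧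
        ∀ x, e x = x →
          x ∈ Submodule.span O (Set.range fun z : D × Fin n => conjAct κ (s z.1) (b z.2))) ∧
      LinearIndependent O (fun i => cor κ (b i)) := by
  obtain ⟨⟨n, b, hb, hbasis⟩, hker, -⟩ := hfree
  refine ⟨n, b, hb, hbasis, ?_⟩
  obtain ⟨s, hs⟩ := hκ.hasRightInverse
  obtain ⟨hli, hspan⟩ := hbasis s hs
  exact linearIndependent_cor_of_basis hs e b hb hli hspan hker

/-- **Nakayama descent.**  If the `e`-part of `Hom(Γ', O)` is nonzero, then so is its image under
the transfer to `Hom(Γ, O)`. -/
theorem cor_ne_zero_of_freeConclusion [Nontrivial O] (hκ : Function.Surjective κ)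
    (e : (Additive (kerSub κ) →+ O) →ₗ[O] (Additive (kerSub κ) →+ O))
    (hfree : FreeConclusion κ O e) (hne : ∃ x, e x = x ∧ x ≠ 0) :
    ∃ x, e x = x ∧ cor κ x ≠ 0 := by
  obtain ⟨n, b, hb, hbasis, hcli⟩ := linearIndependent_cor_basis hκ e hfree
  obtain ⟨s, hs⟩ := hκ.hasRightInverse
  obtain ⟨-, hspan⟩ := hbasis s hs
  obtain ⟨x, hex, hx0⟩ := hne
  obtain ⟨f, hf⟩ := (Finsupp.mem_span_range_iff_exists_finsupp).1 (hspan x hex)
  have hf0 : f ≠ 0 := by
    rintro rfl
    rw [Finsupp.sum_zero_index] at hf
    exact hx0 hf.symm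
  obtain ⟨z, -⟩ := Finsupp.ne_iff.1 hf0
  exact ⟨b z.2, hb _, hcli.ne_zero z.2⟩

/-- Contrapositive: if the transfer kills `e H`, then `e H = 0`. -/
theorem eH_eq_zero_of_cor_eq_zero [Nontrivial O] (hκ : Function.Surjective κ)
    (e : (Additive (kerSub κ) →+ O) →ₗ[O] (Additive (kerSub κ) →+ O))
    (hfree : FreeConclusion κ O e) (hcor : ∀ x, e x = x → cor κ x = 0) :
    ∀ x, e x = x → x = 0 := by
  intro x hex
  by_contra hx0
  obtain ⟨y, hey, hy⟩ := cor_ne_zero_of_freeConclusion hκ e hfree ⟨x, hex, hx0⟩
  exact hy (hcor y hey)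

end NakDesc

end Fermat.Agent.S38.H719
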