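import Mathlib
import Fermat.Agent.S59.TW.H653.UqKer
import Fermat.Agent.S38.H719.NakDesc
import Fermat.Agent.S38.H719.CtrlMin

/-!
# HARD / HECKE, leaf CTRL-MIN, part (ii-c): (MIN) at level `N'` kills the Taylor–Wiles module of
# level `N' q₁ ⋯ q_r` with `Γ_H`-structure (helper719)

Vocabulary of block M-FREE (`S59/MFree`): `M = N' q₁ ⋯ q_r`, `κ : Γ₀(M) →* D` onto a finite group, trivial on
`{d ≡ 1 mod M}`, `Γ' = ker κ`, `e` an `O`-linear operator on `Hom(Γ', O)` with `MFree.FreeConclusion κ O e`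
(the output of `MFree.free`).

* `UK_Gamma0_eq_Uq` : bridge between the two `U_q` on `Hom(Γ₀(M), A)` (`S59.TW.H653.UK`, `S59.H105.Uq`);
* `IsPartKer κ hΓ1 ϖ Ipr c Qs α x` : the generalized eigen-part of `Hom(Γ', O)` (operators
  `MFree.H587.heckeKerLin`, `TW.H653.UqKerLin`);
* `IsPartKer.cor` : `cor` maps it into the part `IsPart` of `Hom(Γ₀(M), O)`;
* `eH_eq_zero_of_min` : **CTRL-MIN.**  If the `(T_l ≡ c_l)`-part of `Hom(Γ₀(N'), O)` vanishes ((MIN) at level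
  `N'`) and `e H` lies in the part `T_l ≡ c_l`, `U_{q_i} ≡ α_i` (`α_i² - 1` units), then `e H = 0`.
-/

set_option autoImplicit false

namespace Fermat.Agent.S38.H719

open CongruenceSubgroup Matrix.SpecialLinearGroup
open Fermat.Agent.S29.H642 Fermat.Agent.S41 Fermat.Agent.S41.Spec Fermat.Agent.S41.H761
open Fermat.Agent.S59.H105 Fermat.Agent.S59.MFree Fermat.Agent.S59.MFree.H587
open Fermat.Agent.S59.TW.H653
open scoped MatrixGroups

universe u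

section Bridge

variable {M q : ℕ} [Fact q.Prime] {A : Type*} [AddCommGroup A]

/-- The two versions of `U_q` on `Hom(Γ₀(M), A)` agree. -/
theorem UK_Gamma0_eq_Uq (hq : q ∣ M) (ψ : Additive (Gamma0 M) →+ A) :
    UK (Gamma0 M) q ψ = Uq hq ψ := by
  rw [UK_Gamma0_eq hq]
  rfl

end Bridge

section Ker

variable {M : ℕ} {D : Type} [Group D] (κ : Gamma0 M →* D)
variable (hΓ1 : ∀ γ : Gamma0 M, ((((γ : SL(2, ℤ)) 1 1 : ℤ)) : ZMod M) = 1 → κ γ = 1)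
variable {O : Type u} [CommRing O]

/-- The generalized eigen-part `T_l ≡ c_l` (`l ∈ Ipr`, `l ∤ M`), `U_q ≡ α_q` (`q ∈ Qs`, `q ∣ M`) of
`Hom(ker κ, O)`. -/
def IsPartKer (ϖ : O) (Ipr : Set ℕ) (c : ℕ → O) (Qs : Set ℕ) (α : ℕ → O)
    (x : Additive (kerSub κ) →+ O) : Prop :=
  (∀ (l : ℕ) [Fact l.Prime] (hl : ¬ l ∣ M), l ∈ Ipr →
    TopNilAt ϖ (shiftBy (heckeKerLin hl κ hΓ1 O) (c l)) x) ∧
  (∀ (q' : ℕ) [Fact q'.Prime] (hq' : q' ∣ M), q' ∈ Qs →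
    TopNilAt ϖ (shiftBy (UqKerLin κ hΓ1 hq' O) (α q')) x)

variable {κ hΓ1} {ϖ : O} {Ipr : Set ℕ} {c : ℕ → O} {Qs : Set ℕ} {α : ℕ → O}

/-- The transfer maps the part of `Hom(ker κ, O)` into the part of `Hom(Γ₀(M), O)`. -/
theorem IsPartKer.cor [Fintype D] {x : Additive (kerSub κ) →+ O}
    (hx : IsPartKer κ hΓ1 ϖ Ipr c Qs α x) : IsPart O O ϖ Ipr c Qs α M (cor κ x) := by
  refine ⟨fun l _ hl hlI => ?_, fun q' _ hq' hq'Q => ?_⟩
  · refine (hx.1 l hl hlI).map (corL κ) fun y => ?_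
    rw [shiftBy_apply, shiftBy_apply, map_sub, map_smul]
    congr 1
    exact cor_heckeKerOf hl κ hΓ1 (wStd hl) (l : ZMod M) (isNormalising_wStd hl) y
  · refine (hx.2 q' hq' hq'Q).map (corL κ) fun y => ?_
    rw [shiftBy_apply, shiftBy_apply, map_sub, map_smul]
    congr 1
    exact (cor_UqKer κ hΓ1 hq' y).trans (UK_Gamma0_eq_Uq hq' _)

end Ker

section Main

variable {D : Type} [Group D] [Fintype D] {O : Type u} [CommRing O] [Nontrivial O]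

/-- **CTRL-MIN.**  `L = [q₁, …, q_r]` distinct primes not dividing `N'`, `M = N' q₁ ⋯ q_r`,
`κ : Γ₀(M) →* D` onto, `e` with the M-FREE conclusion.  If `e H` lies in the generalized eigen-part
`T_l ≡ c_l` (`l ∈ Ipr`), `U_{q_i} ≡ α_{q_i}` with `α_{q_i}² - 1` units, and the part `T_l ≡ c_l`
(`l ∈ Ipr`) of `Hom(Γ₀(N'), O)` vanishes, then `e H = 0`. -/
theorem eH_eq_zero_of_min {N' : ℕ} (L : List ℕ) (κ : Gamma0 (L.foldl (· * ·) N') →* D)
    (hΓ1 : ∀ γ : Gamma0 (L.foldl (· * ·) N'),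
      ((((γ : SL(2, ℤ)) 1 1 : ℤ)) : ZMod (L.foldl (· * ·) N')) = 1 → κ γ = 1)
    (hκ : Function.Surjective κ)
    (e : (Additive (kerSub κ) →+ O) →ₗ[O] (Additive (kerSub κ) →+ O))
    (hfree : FreeConclusion κ O e)
    (ϖ : O) (Ipr : Set ℕ) (c α : ℕ → O)
    (hsep : ∀ a : O, (∀ n : ℕ, ∃ z : O, a = ϖ ^ n • z) → a = 0)
    (hN' : N' ≠ 0) (hnd : L.Nodup)
    (hL : ∀ q ∈ L, q.Prime ∧ ¬ q ∣ N' ∧ q ∉ Ipr ∧ IsUnit (α q ^ 2 - 1))
    (hpart : ∀ x, e x = x → IsPartKer κ hΓ1 ϖ Ipr c {q | q ∈ L} α x)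
    (hmin : ∀ y : Additive (Gamma0 N') →+ O, IsPart O O ϖ Ipr c ∅ α N' y → y = 0) :
    ∀ x, e x = x → x = 0 := by
  refine eH_eq_zero_of_cor_eq_zero hκ e hfree fun x hex => ?_
  refine eq_zero_of_isPart_chain hsep L N' ∅ hN' hnd hL hmin _ ((hpart x hex).cor.mono ?_)
  intro z hz
  rcases hz with hz | hz
  · exact absurd hz (Set.notMem_empty z)
  · exact hz

end Main

end Fermat.Agent.S38.H719
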